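import Fermat.Agent.GL.Eta.EtaQuot
import Fermat.Agent.GK.AL.SecondValGal

/-!
# GATE-L prep / GL-ETA (3): the Fricke identity `W_q g · g = q¹²` for `g = Δ(z)/Δ(qz)` (helper16)

`q ∥ N`, `W_q = wAut h` (helper42) swaps `j` and `j_q`, hence carries the derivation `d/dj` of `F_N`
to `d/dj_q` and `c = d j_q / d j` to `c⁻¹` (`algEquiv_dOver_swap`).  With
`g = q⁶ c⁻⁶ R(j_q)/R(j)` this gives **`wAut h (etaQ) * etaQ = q ^ 12`** with NO slash-action
computation.
-/

set_option autoImplicit false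

noncomputable section

namespace Fermat.Agent.GL.Eta

open ModularCurve IntermediateField
open Fermat.Agent.S28 Fermat.Agent.S24 Fermat.Agent.S24.Degree Fermat.Agent.GJ.Haupt
open Fermat.Agent.GK.AL

section General

variable {k F : Type*} [Field k] [Field F] [Algebra k F]

/-- algebraicity over `k(t)` is transported by automorphisms -/
theorem isAlgebraic_adjoin_algEquiv (σ : F ≃ₐ[k] F) (t : F) [Algebra.IsAlgebraic (↥k⟮t⟯) F] :
    Algebra.IsAlgebraic (↥k⟮σ t⟯) F := by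
  have e : (k⟮t⟯).map (σ : F →ₐ[k] F) = k⟮σ t⟯ := by
    rw [IntermediateField.adjoin_map, Set.image_singleton]
    rfl
  have h1 : Algebra.IsAlgebraic (↥((k⟮t⟯).map (σ : F →ₐ[k] F))) F := by
    refine Algebra.IsAlgebraic.ringHom_of_comp_eq
      (intermediateFieldMap σ k⟮t⟯) σ (intermediateFieldMap σ k⟮t⟯).injective σ.surjective ?_
    ext x
    rfl
  rw [← e]
  exact h1

end General

section Fricke

variable {q N : ℕ} [NeZero N] [NeZero q] (h : ExactDvd q N)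

theorem wAut_jF' : wAut h (jF N) = jdF N q h.dvd := by
  rw [Fermat.Agent.GK.AL.wAut_jF, jQ_eq_jdF]

theorem wAut_jdF' : wAut h (jdF N q h.dvd) = jF N := by
  rw [← jQ_eq_jdF N h, wAut_jQ]

instance isAlgebraic_jdF : Algebra.IsAlgebraic (↥Kbar⟮jdF N q h.dvd⟯) (FN N) := by
  rw [← wAut_jF' h]
  exact isAlgebraic_adjoin_algEquiv (wAut h) (jF N)

/-- **`W_q c = c⁻¹`** for `c = d j_q / d j`. -/
theorem wAut_cF_mul : wAut h (cF N q h.dvd) * cF N q h.dvd = 1 := by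
  have := isAlgebraic_jdF h
  have hs : thetaDer Kbar (incl N (jdF N q h.dvd)) ≠ 0 := by
    have h1 : incl N (jdF N q h.dvd) = jS Kbar q := coe_jdF' N q h.dvd
    rw [h1, thetaDer_apply]
    exact thetaL_jS_ne_zero Kbar q
  exact algEquiv_dOver_swap (incl N) (thetaDer Kbar) (wAut h) (jdF N q h.dvd) (jF N)
    (wAut_jdF' h) (wAut_jF' h) (theta_incl_jF_ne_zero N) hs

theorem wAut_cF : wAut h (cF N q h.dvd) = (cF N q h.dvd)⁻¹ :=
  eq_inv_of_mul_eq_one_left (wAut_cF_mul h)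

/-- **Fricke**: `W_q g · g = q¹²` for `g = Δ(Q)/Δ(Q^q)`. -/
theorem wAut_etaQ_mul : wAut h (etaQ N q h.dvd) * etaQ N q h.dvd = (q : FN N) ^ 12 := by
  have hc := cF_ne_zero N q h.dvd
  have e1 : incl N (jF N) = jqModC Kbar := coe_jF' N
  have e2 : incl N (jdF N q h.dvd) = jS Kbar q := coe_jdF' N q h.dvd
  have hj : jF N ≠ 0 := fun h0 => jqModC_ne_zero' Kbar (by rw [← e1, h0, map_zero])
  have hj' : jF N - 1728 ≠ 0 := fun h0 => jqModC_sub_ne_zero Kbar (by
    have h1 := congrArg (incl N) h0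
    rwa [map_sub, map_ofNat, map_zero, e1] at h1)
  have hjq : jdF N q h.dvd ≠ 0 := fun h0 => jS_ne_zero' Kbar q (by rw [← e2, h0, map_zero])
  have hjq' : jdF N q h.dvd - 1728 ≠ 0 := fun h0 => jS_sub_ne_zero Kbar q (by
    have h1 := congrArg (incl N) h0
    rwa [map_sub, map_ofNat, map_zero, e2] at h1)
  rw [etaQ]
  simp only [map_div₀, map_mul, map_pow, map_inv₀, map_sub, map_natCast, map_ofNat,
    wAut_jF' h, wAut_jdF' h, wAut_cF h]
  field_simp

theorem wAut_etaQ : wAut h (etaQ N q h.dvd) = (q : FN N) ^ 12 / etaQ N q h.dvd := by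
  rw [eq_div_iff (etaQ_ne_zero N q h.dvd), wAut_etaQ_mul]

/-- `W_q (g / q¹²) = g⁻¹` : `g / q¹²` is a unit for `w₂ = w₁ ∘ W_q` iff `g` is for `w₁`. -/
theorem wAut_etaQ_div :
    wAut h (etaQ N q h.dvd / (q : FN N) ^ 12) = (etaQ N q h.dvd)⁻¹ := by
  have hq : ((q : FN N)) ^ 12 ≠ 0 := pow_ne_zero _ (Nat.cast_ne_zero.2 (NeZero.ne q))
  rw [map_div₀, wAut_etaQ, map_pow, map_natCast, div_div_cancel_left' hq]

end Fricke

end Fermat.Agent.GL.Eta
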