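import Fermat.Agent.GL.Eta.EtaQuot
import Fermat.Agent.GJ.J2.Dict.CuspAnC
import Fermat.Agent.GJ.J2.Dict.InteriorAsmC
import Fermat.Agent.GJ.J2.EigDescLeaves
import Fermat.Agent.GJ.J1.PlaceLattice

/-!
# GATE-L prep / GL-ETA (5): `g = Δ(z)/Δ(dz)` has no zeros or poles off the cusps (helper16)

* `HasMerExp.inj` : a meromorphic function is determined by its expansion;
* `etaHol N d hd : Hol` (`= Δ(z)/Δ(dz)`, a unit of `Hol`), `ordM_etaHol = 0`;
* `realizeC_bcQ_etaQ : realizeC N (bcQ N (etaQ N d hd)) = algebraMap Hol Mer (etaHol N d hd)`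
  (identification by the expansions at a cusp: S28 `exp_eq_sK` + J2-DICT bridge `hasMerExp_SigC_out`);
* **`ord_etaQ_eq_zero`** : `P.ord (etaQ N d hd) = 0` at every place `P` of `F_N / ℚ̄` where `j` is finite;
* **`regFin_etaQ`, `regFin_etaQ_inv`** : `g`, `g⁻¹` are integral over `ℚ̄[j]`.
-/

set_option autoImplicit false

noncomputable section

namespace Fermat.Agent.GL.Eta

open UpperHalfPlane ModularCurve AlgebraicCurve HahnSeries
open Fermat.Agent.S28 Fermat.Agent.S28.CuspExp Fermat.Agent.S28.Assemble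
open Fermat.Agent.S24 Fermat.Agent.S24_helper62 Fermat.Agent.S24_helper82
open Fermat.Agent.GJ.Dict Fermat.Agent.GJ.Dict.Cusp Fermat.Agent.GJ.EigAsm Fermat.Agent.GJ.J1
open scoped MatrixGroups Manifold

attribute [local instance] Fermat.Agent.GJ.EigAsm.algKbC

/-! ### a meromorphic function is determined by its expansion -/

theorem HasMerExp.inj {N : ℕ} [NeZero N] {m m' : Mer} {L : LaurentSeries ℂ}
    (h : HasMerExp N m L) (h' : HasMerExp N m' L) : m = m' := by
  obtain ⟨a, b, hb, ha', hb', hm, hL⟩ := h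
  obtain ⟨c, d, hd, hc', hd', hm', hL'⟩ := h'
  have hh := natCast_pos_real' N
  have h1 : cuspExp (N : ℝ) ((a * d : Hol) : ℍ → ℂ) = cuspExp (N : ℝ) ((c * b : Hol) : ℍ → ℂ) := by
    rw [cuspExp_hol_mul ha' hd', cuspExp_hol_mul hc' hb', ← hL, ← hL']
    ring
  have h2 : a * d = c * b := by
    have hce : IsCE (N : ℝ) (((a * d : Hol) : ℍ → ℂ) - ((c * b : Hol) : ℍ → ℂ)) :=
      (isCE_hol_mul ha' hd').sub hh (isCE_hol_mul hc' hb')
    have h0 := hce.eq_zero_of_cuspExp_eq_zero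
      (by rw [cuspExp_sub hh (isCE_hol_mul ha' hd') (isCE_hol_mul hc' hb'), h1, sub_self])
    exact Subtype.ext (sub_eq_zero.1 h0)
  have hbM : algebraMap Hol Mer b ≠ 0 := algebraMap_ne_zero hb
  have hdM : algebraMap Hol Mer d ≠ 0 := algebraMap_ne_zero hd
  apply mul_left_cancel₀ (mul_ne_zero hbM hdM)
  calc algebraMap Hol Mer b * algebraMap Hol Mer d * m
      = (algebraMap Hol Mer b * m) * algebraMap Hol Mer d := by ring
    _ = algebraMap Hol Mer (a * d) := by rw [hm, map_mul]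
    _ = algebraMap Hol Mer (c * b) := by rw [h2]
    _ = algebraMap Hol Mer b * algebraMap Hol Mer d * m' := by rw [map_mul, ← hm']; ring

section Analytic

variable (N : ℕ) [NeZero N] (d : ℕ) [NeZero d] (hd : d ∣ N)

/-- **`Δ(z)/Δ(dz)`** as a holomorphic function on `ℍ` -/
def etaHol : Hol :=
  ⟨genFun N (⟨d, hd⟩, 2), (analyticFacts N).mdiff _ (isMC_genFun N (analyticFacts N) _)⟩

/-- `Δ(dz)/Δ(z)` as a holomorphic function on `ℍ` -/
def etaHolInv : Hol :=
  ⟨genFun N (⟨d, hd⟩, 1), (analyticFacts N).mdiff _ (isMC_genFun N (analyticFacts N) _)⟩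

omit [NeZero d] in
theorem etaHol_mul_inv : etaHol N d hd * etaHolInv N d hd = 1 := by
  apply Subtype.ext
  funext τ
  show (modUnit d _ τ)⁻¹ * modUnit d _ τ = 1
  exact inv_mul_cancel₀ (modUnit_ne_zero d _ τ)

omit [NeZero d] in
theorem etaHol_ne_zero : etaHol N d hd ≠ 0 := fun h => by
  have h1 := etaHol_mul_inv N d hd
  rw [h, zero_mul] at h1
  exact zero_ne_one h1

omit [NeZero d] in
theorem etaHolInv_ne_zero : etaHolInv N d hd ≠ 0 := fun h => by
  have h1 := etaHol_mul_inv N d hd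
  rw [h, mul_zero] at h1
  exact zero_ne_one h1

omit [NeZero d] in
theorem ordNat_etaHol (τ : ℍ) : ordNat τ (etaHol N d hd) = 0 := by
  have h1 := ordNat_mul (etaHol_ne_zero N d hd) (etaHolInv_ne_zero N d hd) τ
  rw [etaHol_mul_inv, ordNat_one] at h1
  omega

omit [NeZero d] in
/-- `Δ(z)/Δ(dz)` has no zeros on `ℍ` -/
theorem ordM_etaHol (τ : ℍ) : ordM τ (algebraMap Hol Mer (etaHol N d hd)) = 0 := by
  rw [ordM_algebraMap τ (etaHol_ne_zero N d hd), ordNat_etaHol]
  rfl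

/-- the expansion of `bcQ etaQ` is `Δ(Q)/Δ(Q^d)` over `ℂ` -/
theorem coe_bcQ_etaQ :
    ((bcQ N (etaQ N d hd) : FC N) : LaurentSeries ℂ) = genFam ℂ N (⟨d, hd⟩, 2) := by
  rw [coe_bcQ, coe_etaQ, coeffMap_uInvS]
  rfl

/-- **identification** of the realisation of `etaQ` with `Δ(z)/Δ(dz)` -/
theorem realizeC_bcQ_etaQ :
    realizeC N (bcQ N (etaQ N d hd)) = algebraMap Hol Mer (etaHol N d hd) := by
  set q : I0 N := ((1 : SL(2, ℤ)) : I0 N) with hq
  set x : GenIdx N := (⟨d, hd⟩, 2) with hx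
  have hmem : genFam ℂ N x ∈ bigField ℂ N :=
    FC_le_bigField N (by rw [← coe_bcQ_etaQ N d hd]; exact (bcQ N (etaQ N d hd)).2)
  -- the formal expansion at `q`
  have e1 : cuspSigmaC N q (bcQ N (etaQ N d hd)) =
      sK N (RingHom.id ℂ) (hzetaC N) (hDC N) q x := by
    have h1 : cuspSigmaC N q (bcQ N (etaQ N d hd)) =
        (cuspInpC N).σ q ⟨genFam ℂ N x, hmem⟩ := by
      show (cuspInpC N).σ q (IntermediateField.inclusion (FC_le_bigField N) _) = _
      congr 1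
      exact Subtype.ext (coe_bcQ_etaQ N d hd)
    rw [h1, (cuspInpC N).σ_gen q x hmem]
    rfl
  -- the analytic expansion of `Δ(z)/Δ(dz) ∘ rep q`
  have hce : IsCE (N : ℝ) ((compSL (rep N q) (etaHol N d hd) : Hol) : ℍ → ℂ) :=
    (analyticFacts N).isMC_gen (rep N q) x
  have e2 : cuspExp (N : ℝ) ((compSL (rep N q) (etaHol N d hd) : Hol) : ℍ → ℂ) =
      sK N (RingHom.id ℂ) (hzetaC N) (hDC N) q x := by
    have h2 := exp_eq_sK N (RingHom.id ℂ) (hzetaC N) (hDC N) (analyticFacts N) q x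
    rw [coeffMap_id] at h2
    exact h2
  have hA := hasMerExp_SigC_out N q (bcQ N (etaQ N d hd))
  rw [e1, ← e2] at hA
  have hB := HasMerExp.of_hol (N := N) (compSL (rep N q) (etaHol N d hd)) hce
  have h3 := HasMerExp.inj hA hB
  rw [SigC_apply, ← compM_algebraMap] at h3
  exact (compM (rep N q)).injective h3

end Analytic

section Places

variable (N : ℕ) [NeZero N] (d : ℕ) [NeZero d] (hd : d ∣ N)

theorem bcQ_jF : bcQ N (jF N) = jC N := bcQ_jdF N 1 (one_dvd N)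

/-- **no zeros or poles off the cusps**: at every place where `j` is finite, `ord g = 0`. -/
theorem ord_etaQ_eq_zero (P : Place Kbar (FN N)) (hP : 0 ≤ P.ord (jF N)) :
    P.ord (etaQ N d hd) = 0 := by
  obtain ⟨Q, hQ⟩ := Fermat.Agent.GJ.EigAsm.exists_place_over_bcQ N P
  rw [← hQ]
  have hj : ¬ Q.ord (jC N) < 0 := by
    rw [← bcQ_jF, hQ]
    exact not_lt.2 hP
  obtain ⟨τ, rfl⟩ := exists_placeAt_eq N Q hj
  have hne : bcQ N (etaQ N d hd) ≠ 0 := fun h0 =>
    etaQ_ne_zero N d hd (bcQ_injective N (by rw [h0, map_zero]))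
  have h1 := ordM_realizeC N τ hne
  rw [realizeC_bcQ_etaQ, ordM_etaHol] at h1
  rcases mul_eq_zero.1 h1.symm with h2 | h2
  · exact absurd h2 (eAt_pos N τ).ne'
  · exact h2

/-- **`g = Δ(z)/Δ(dz)` is integral over `ℚ̄[j]`** -/
theorem regFin_etaQ : RegFin Kbar (jF N) (etaQ N d hd) := by
  have : IsGen Kbar (jF N) := isGen_jF N
  rw [PlaceLattice.regFin_iff_ord (jF N)]
  intro P hP
  rw [ord_etaQ_eq_zero N d hd P hP]

/-- **`g⁻¹ = Δ(dz)/Δ(z)` is integral over `ℚ̄[j]`** -/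
theorem regFin_etaQ_inv : RegFin Kbar (jF N) (etaQ N d hd)⁻¹ := by
  have : IsGen Kbar (jF N) := isGen_jF N
  rw [PlaceLattice.regFin_iff_ord (jF N)]
  intro P hP
  rw [P.ord_inv, ord_etaQ_eq_zero N d hd P hP, neg_zero]

end Places

end Fermat.Agent.GL.Eta
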