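import Fermat.Agent.GL.Eta.Gauss
import Fermat.Agent.GL.Eta.RegFin
import Fermat.Agent.GK.QS.BTilde

/-!
# GATE-L prep / GL-ETA (7): `g = Δ(z)/Δ(ℓz)` in K's ring `B` and the L-REG power trick (helper16)

Level `N = N' ℓ`, `ℓ ∥ N`, `B = BRing N' ℓ A h` (helper15: regular off the cusps, `w₁, w₂ ≥ 0`).

* `galF_etaQ` : `g` is `ℚ`-rational (fixed by the coefficientwise Galois action);
* `etaQ_mem_BRing`, `etaB`, `rho1_etaB = uInvS k ℓ`, `rho2_etaB = 0` (`A` over `ℓ`);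
* **`pow_div_etaQ_mem_BRing`** : `y ∈ B`, `w₂(y) ≥ w(ℓ)` (i.e. `y/ℓ ∈ Rw₂`) ⟹ `y¹²/g ∈ B`
  (helper28 2469 (1)/(2), BLUEPRINT v2 (V2) III), with both reductions:
  `rho1 (y¹²/g) = (rho1 y)¹² · Δ~(Q^ℓ)/Δ~(Q)`, `rho2 (y¹²/g) = (red₂ (y/ℓ))¹² · Δ~(Q)/Δ~(Q^ℓ)`.
-/

set_option autoImplicit false

noncomputable section

namespace Fermat.Agent.GL.Eta

open ModularCurve IsLocalRing
open Fermat.Agent.S28 Fermat.Agent.S24 Fermat.Agent.GJ.J1 Fermat.Agent.GJ.J1.Val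
open Fermat.Agent.GK.AL Fermat.Agent.GK.QS

section Rational

variable (N : ℕ) [NeZero N] (d : ℕ) [NeZero d] (hd : d ∣ N)

/-- **`g` is `ℚ`-rational** -/
theorem galF_etaQ (σ : Kbar ≃ₐ[ℚ] Kbar) : galF N σ (etaQ N d hd) = etaQ N d hd := by
  apply Subtype.ext
  show coeffMap (σ : Kbar →+* Kbar) ((etaQ N d hd : FN N) : LaurentSeries Kbar) = _
  rw [coe_etaQ, coeffMap_uInvS]

theorem galF_etaQ_inv (σ : Kbar ≃ₐ[ℚ] Kbar) : galF N σ (etaQ N d hd)⁻¹ = (etaQ N d hd)⁻¹ := by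
  rw [map_inv₀, galF_etaQ]

end Rational

section B

variable (N' : ℕ) [NeZero N'] (ℓ : ℕ) [Fact ℓ.Prime] [NeZero ℓ]
variable (A : ValuationSubring Kbar) (h : ExactDvd ℓ (N' * ℓ))

local notation "kA" => IsLocalRing.ResidueField A

/-- `g ∈ B` -/
theorem etaQ_mem_BRing (hℓA : (ℓ : Kbar) ∈ A) : etaQ (N' * ℓ) ℓ h.dvd ∈ BRing N' ℓ A h :=
  ⟨regFin_etaQ _ _ _, etaQ_mem_Rw1 _ A _ _, etaQ_mem_Rw2 A h hℓA⟩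

/-- `g` as an element of `B` -/
def etaB (hℓA : (ℓ : Kbar) ∈ A) : BRing N' ℓ A h := ⟨_, etaQ_mem_BRing N' ℓ A h hℓA⟩

/-- `red₁ g = Δ~(Q)/Δ~(Q^ℓ)` -/
theorem rho1_etaB (hℓA : (ℓ : Kbar) ∈ A) : rho1 N' ℓ A h (etaB N' ℓ A h hℓA) = uInvS kA ℓ := by
  rw [rho1_apply]
  exact coe_red1_etaQ _ A ℓ h.dvd _

/-- `red₂ g = 0` for `A` over `ℓ` -/
theorem rho2_etaB (hℓA : (ℓ : Kbar) ∈ A.nonunits) :
    rho2 N' ℓ A h (etaB N' ℓ A h (ValuationSubring.nonunits_le hℓA)) = 0 := by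
  rw [rho2_apply]
  obtain ⟨hx, h0⟩ := (RedData_mem_nonunits_iff (redData2 (N' * ℓ) A h) _).1
    (etaQ_mem_nonunits_Rw2 A h hℓA)
  have : (redData2 (N' * ℓ) A h).red ⟨(etaB N' ℓ A h (ValuationSubring.nonunits_le hℓA)).1,
      (etaB N' ℓ A h (ValuationSubring.nonunits_le hℓA)).2.2.2⟩ = 0 := h0
  rw [this]
  rfl

variable {N' ℓ A h}

/-- **the L-REG power trick**: `y ∈ B` with `w₂(y) ≥ w(ℓ)` ⟹ `y¹²/g ∈ B`. -/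
theorem pow_div_etaQ_mem_BRing {y : FN (N' * ℓ)} (hy : y ∈ BRing N' ℓ A h)
    (hy2 : y / (ℓ : FN (N' * ℓ)) ∈ (redData2 (N' * ℓ) A h).Rw) :
    y ^ 12 / etaQ (N' * ℓ) ℓ h.dvd ∈ BRing N' ℓ A h := by
  have hℓ0 : (ℓ : FN (N' * ℓ)) ≠ 0 := Nat.cast_ne_zero.2 (NeZero.ne ℓ)
  refine ⟨?_, ?_, ?_⟩
  · rw [div_eq_mul_inv]
    exact (hy.1.pow 12).mul (regFin_etaQ_inv _ _ _)
  · rw [div_eq_mul_inv]
    exact mul_mem (pow_mem hy.2.1 12) (etaQ_inv_mem_Rw1 _ A _ _)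
  · have e : y ^ 12 / etaQ (N' * ℓ) ℓ h.dvd =
        (y / (ℓ : FN (N' * ℓ))) ^ 12 *
          (etaQ (N' * ℓ) ℓ h.dvd / (ℓ : FN (N' * ℓ)) ^ 12)⁻¹ := by
      have hg := etaQ_ne_zero (N' * ℓ) ℓ h.dvd
      field_simp
    rw [e]
    exact mul_mem (pow_mem hy2 12) (etaQ_div_inv_mem_Rw2 A h)

/-- `red₁ (y¹²/g) = (red₁ y)¹² · Δ~(Q^ℓ)/Δ~(Q)` -/
theorem rho1_pow_div_etaQ {y : FN (N' * ℓ)} (hy : y ∈ BRing N' ℓ A h)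
    (hy2 : y / (ℓ : FN (N' * ℓ)) ∈ (redData2 (N' * ℓ) A h).Rw) :
    rho1 N' ℓ A h ⟨_, pow_div_etaQ_mem_BRing hy hy2⟩ =
      rho1 N' ℓ A h ⟨y, hy⟩ ^ 12 * uS kA ℓ := by
  rw [rho1_apply, rho1_apply]
  have e : (⟨y ^ 12 / etaQ (N' * ℓ) ℓ h.dvd, (pow_div_etaQ_mem_BRing hy hy2).2.1⟩ :
      (redDataBar (N' * ℓ) A).Rw) =
      (⟨y, hy.2.1⟩ : (redDataBar (N' * ℓ) A).Rw) ^ 12 *
        ⟨(etaQ (N' * ℓ) ℓ h.dvd)⁻¹, etaQ_inv_mem_Rw1 _ A _ _⟩ :=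
    Subtype.ext (div_eq_mul_inv _ _)
  rw [e, map_mul, map_pow, MulMemClass.coe_mul, SubmonoidClass.coe_pow, coe_red1_etaQ_inv]

/-- `red₂ (y¹²/g) = (red₂ (y/ℓ))¹² · Δ~(Q)/Δ~(Q^ℓ)` -/
theorem rho2_pow_div_etaQ {y : FN (N' * ℓ)} (hy : y ∈ BRing N' ℓ A h)
    (hy2 : y / (ℓ : FN (N' * ℓ)) ∈ (redData2 (N' * ℓ) A h).Rw) :
    rho2 N' ℓ A h ⟨_, pow_div_etaQ_mem_BRing hy hy2⟩ =
      (((redData2 (N' * ℓ) A h).red ⟨y / (ℓ : FN (N' * ℓ)), hy2⟩ : FresBar (N' * ℓ) A) :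
        LaurentSeries kA) ^ 12 * uInvS kA ℓ := by
  rw [rho2_apply]
  have hg := etaQ_ne_zero (N' * ℓ) ℓ h.dvd
  have hℓ0 : (ℓ : FN (N' * ℓ)) ≠ 0 := Nat.cast_ne_zero.2 (NeZero.ne ℓ)
  have e : (⟨y ^ 12 / etaQ (N' * ℓ) ℓ h.dvd, (pow_div_etaQ_mem_BRing hy hy2).2.2⟩ :
      (redData2 (N' * ℓ) A h).Rw) =
      (⟨y / (ℓ : FN (N' * ℓ)), hy2⟩ : (redData2 (N' * ℓ) A h).Rw) ^ 12 *
        ⟨(etaQ (N' * ℓ) ℓ h.dvd / (ℓ : FN (N' * ℓ)) ^ 12)⁻¹, etaQ_div_inv_mem_Rw2 A h⟩ :=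
    Subtype.ext (by
      show y ^ 12 / etaQ (N' * ℓ) ℓ h.dvd =
        (y / (ℓ : FN (N' * ℓ))) ^ 12 * (etaQ (N' * ℓ) ℓ h.dvd / (ℓ : FN (N' * ℓ)) ^ 12)⁻¹
      field_simp)
  rw [e, map_mul, map_pow, MulMemClass.coe_mul, SubmonoidClass.coe_pow, coe_red2_etaQ_div_inv]

end B

end Fermat.Agent.GL.Eta
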