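import Fermat.Agent.GL.Eta.Gauss
import Fermat.Agent.GL.Thick.HasseJ

/-!
# GATE-L prep / GL-ETA (6): `red₁ (Δ(z)/Δ(qz)) = pH(j~)`, the supersingular polynomial (helper16)

Bridge between GL-ETA (`coe_red1_etaQ_char : red₁ g = Δ~^{-(q-1)}`) and helper63's Hasse data
(`hasse_pH : Δ~^{q-1} · pH(J) = 1`, `pH = ssPoly q k hq5`):

* `hasLead_aeval_jqModC` : `p(J)` has lowest term `lc(p) · Q^{-deg p}`;
* `natDegree_ssPoly : (ssPoly q k hq5).natDegree = q - 1`, `monic_ssPoly`;
* `deltaInvS_pow_eq_aeval : Δ~^{-(q-1)} = pH(J)`;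
* **`red1_etaQ_eq_aeval`** : in `FresBar N A`, `red₁ g = aeval (red₁ j) (ssPoly q 𝕜 hq5)`.
-/

set_option autoImplicit false

noncomputable section

namespace Fermat.Agent.GL.Eta

open ModularCurve IsLocalRing Polynomial
open Fermat.Agent.S28 Fermat.Agent.S24 Fermat.Agent.GJ.Haupt Fermat.Agent.GL.Thick
open Fermat.Agent.GK.AL Fermat.Agent.GJ.J1 Fermat.Agent.GJ.J1.Val

section Lead

variable (k : Type*) [Field k]

/-- `p(J)` has lowest term `lc(p) · Q^{-deg p}` -/
theorem hasLead_aeval_jqModC (p : k[X]) :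
    HasLead (aeval (jqModC k) p) (-(p.natDegree : ℤ)) p.leadingCoeff := by
  have hterm : ∀ i : ℕ,
      HasLead (algebraMap k (LaurentSeries k) (p.coeff i) * jqModC k ^ i) (-(i : ℤ)) (p.coeff i) := by
    intro i
    have h := (hasLead_C (p.coeff i)).mul ((hasLead_jqModC k).pow i)
    rw [algebraMap_laurent_eq_C]
    exact h.congr (by ring) (by rw [one_pow, mul_one])
  rw [aeval_eq_sum_range]
  simp only [Algebra.smul_def]
  constructor
  · rw [HahnSeries.coeff_sum, Finset.sum_range_succ, (hterm p.natDegree).1,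
      Finset.sum_eq_zero, zero_add]
    · rfl
    · intro i hi
      have hi' := Finset.mem_range.1 hi
      exact (hterm i).2 _ (by omega)
  · intro m hm
    rw [HahnSeries.coeff_sum]
    apply Finset.sum_eq_zero
    intro i hi
    have hi' := Finset.mem_range.1 hi
    exact (hterm i).2 _ (by omega)

theorem DL_eq_deltaS : DL k = deltaS k := ofPowerSeries_ram_delta (A := k)

end Lead

section Hasse

variable (q : ℕ) [Fact q.Prime] (k : Type*) [Field k] [CharP k q] (hq5 : 5 ≤ q)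

/-- **`Δ~^{-(q-1)} = pH(J)`** -/
theorem deltaInvS_pow_eq_aeval :
    deltaInvS k ^ (q - 1) = aeval (jqModC k) (ssPoly q k hq5) := by
  have h := hasse_pH q k hq5
  rw [DL_eq_deltaS] at h
  have h1 : deltaInvS k ^ (q - 1) * deltaS k ^ (q - 1) = 1 := by
    rw [← mul_pow, deltaInvS_mul_deltaS, one_pow]
  calc deltaInvS k ^ (q - 1)
      = deltaInvS k ^ (q - 1) * (deltaS k ^ (q - 1) * aeval (jqModC k) (ssPoly q k hq5)) := by
        rw [h, mul_one]
    _ = aeval (jqModC k) (ssPoly q k hq5) := by rw [← mul_assoc, h1, one_mul]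

theorem ssPoly_ne_zero : ssPoly q k hq5 ≠ 0 := fun h0 => by
  have h := hasse_pH q k hq5
  rw [h0, map_zero, mul_zero] at h
  exact zero_ne_one h

/-- the supersingular polynomial has degree `q - 1` -/
theorem natDegree_ssPoly : (ssPoly q k hq5).natDegree = q - 1 := by
  have h1 := hasLead_aeval_jqModC k (ssPoly q k hq5)
  rw [← deltaInvS_pow_eq_aeval] at h1
  have h2 := (hasLead_deltaInvS (R := k)).pow (q - 1)
  have hlc : (ssPoly q k hq5).leadingCoeff ≠ 0 :=
    leadingCoeff_ne_zero.2 (ssPoly_ne_zero q k hq5)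
  have o1 := h1.order_eq hlc
  have o2 := h2.order_eq (by rw [one_pow]; exact one_ne_zero)
  rw [o1] at o2
  have : ((ssPoly q k hq5).natDegree : ℤ) = ((q - 1 : ℕ) : ℤ) := by linarith
  exact_mod_cast this

/-- the supersingular polynomial is monic -/
theorem monic_ssPoly : (ssPoly q k hq5).Monic := by
  have h1 := hasLead_aeval_jqModC k (ssPoly q k hq5)
  rw [← deltaInvS_pow_eq_aeval, natDegree_ssPoly] at h1
  have h2 := (hasLead_deltaInvS (R := k)).pow (q - 1)
  have e : ((q - 1 : ℕ) : ℤ) * (-1) = -((q - 1 : ℕ) : ℤ) := by ring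
  rw [e] at h2
  have := h1.1.symm.trans h2.1
  rw [one_pow] at this
  exact this

end Hasse

section Red

variable (N : ℕ) [NeZero N] (A : ValuationSubring Kbar) (q : ℕ) [Fact q.Prime] [NeZero q]
  (hq : q ∣ N) [CharP (ResidueField A) q] (hq5 : 5 ≤ q)

local notation "𝕜" => ResidueField A

/-- `red₁ j = J` (any membership proof) -/
theorem coe_red1_jF (hj : jF N ∈ (redDataBar N A).Rw) :
    (((redDataBar N A).red ⟨jF N, hj⟩ : FresBar N A) : LaurentSeries 𝕜) = jqModC 𝕜 := by
  have h1 : (⟨jF N, hj⟩ : (redDataBar N A).Rw) =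
      ⟨gen N (idxOne N), gen_mem_Rw1 N A _⟩ := Subtype.ext (jF_eq_gen N)
  rw [h1, coe_red1_gen_of_val N A (idxOne N) 1 rfl, qExpand_one_apply]

/-- **`red₁ (Δ(z)/Δ(qz)) = pH(j~)`** in the residue field of the Gauss valuation, `pH` the
supersingular polynomial (monic of degree `q - 1`). -/
theorem red1_etaQ_eq_aeval (hm : etaQ N q hq ∈ (redDataBar N A).Rw)
    (hj : jF N ∈ (redDataBar N A).Rw) :
    (redDataBar N A).red ⟨etaQ N q hq, hm⟩ =
      aeval ((redDataBar N A).red ⟨jF N, hj⟩) (ssPoly q 𝕜 hq5) := by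
  apply Subtype.ext
  have h2 : (((aeval ((redDataBar N A).red ⟨jF N, hj⟩) (ssPoly q 𝕜 hq5) : FresBar N A)) :
      LaurentSeries 𝕜) =
      aeval (((redDataBar N A).red ⟨jF N, hj⟩ : FresBar N A) : LaurentSeries 𝕜)
        (ssPoly q 𝕜 hq5) :=
    (aeval_algHom_apply (FresBar N A).val _ _).symm
  rw [h2, coe_red1_jF, coe_red1_etaQ_char, deltaInvS_pow_eq_aeval q 𝕜 hq5]

end Red

end Fermat.Agent.GL.Eta
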