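import Fermat.Agent.GL.Eta.Fricke
import Fermat.Agent.GK.Cusp.SepFun

/-!
# GATE-L prep / GL-ETA (4): the two Gauss valuations of `g = Δ(z)/Δ(dz)` (helper16)

`A` ANY valuation subring of `ℚ̄`, `R₁ = redDataBar N A` (Gauss valuation `w₁` at `∞`),
`R₂ = redData2 N A h` (`w₂ = w₁ ∘ W_q`, helper42).

* `w₁` (any `d ∣ N`): `g, g⁻¹ ∈ Rw₁`, `red₁ g = Δ~(Q)/Δ~(Q^d)` (`uInvS 𝕜 d`), `red₁ g⁻¹ = uS 𝕜 d`;
  in characteristic `q`, `d = q`: `red₁ g = Δ~^{-(q-1)}`, `red₁ g⁻¹ = Δ~^{q-1}`.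
* `w₂` (`q ∥ N`, `d = q`): `g / q¹²` and its inverse lie in `Rw₂`, `red₂ (g/q¹²) = uS 𝕜 q`,
  `red₂ (q¹²/g) = uInvS 𝕜 q`: **`w₂(g) = 12·w(q)`**; for `A` over `q`: `g ∈ Rw₂.nonunits`.
-/

set_option autoImplicit false

noncomputable section

namespace Fermat.Agent.GL.Eta

open ModularCurve IntermediateField IsLocalRing
open Fermat.Agent.S28 Fermat.Agent.S24 Fermat.Agent.S24.Degree Fermat.Agent.GJ.Haupt
open Fermat.Agent.GK.AL Fermat.Agent.GJ.J1 Fermat.Agent.GJ.J1.Val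

section W1

variable (N : ℕ) [NeZero N] (A : ValuationSubring Kbar) (d : ℕ) [NeZero d] (hd : d ∣ N)

local notation "𝕜" => ResidueField A

theorem emb_uInvS : emb A (uInvS A d) = uInvS Kbar d := coeffMap_uInvS A.subtype d

theorem emb_uS : emb A (uS A d) = uS Kbar d := coeffMap_uS A.subtype d

theorem rd_uInvS : rd A (uInvS A d) = uInvS 𝕜 d := coeffMap_uInvS (residue A) d

theorem rd_uS : rd A (uS A d) = uS 𝕜 d := coeffMap_uS (residue A) d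

/-- the expansion of `g⁻¹` is `Δ(Q^d)/Δ(Q)` -/
theorem coe_etaQ_inv :
    (((etaQ N d hd)⁻¹ : FN N) : LaurentSeries Kbar) = uS Kbar d := by
  have h1 : (((etaQ N d hd)⁻¹ : FN N) : LaurentSeries Kbar) =
      ((etaQ N d hd : FN N) : LaurentSeries Kbar)⁻¹ := by push_cast; rfl
  rw [h1, coe_etaQ]
  exact (eq_inv_of_mul_eq_one_left (uS_mul_uInvS (R := Kbar) d)).symm

include hd in
theorem emb_uInvS_mem : emb A (uInvS A d) ∈ modularFunctionFieldBar N := by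
  rw [emb_uInvS, ← coe_etaQ N d hd]
  exact (etaQ N d hd).2

include hd in
theorem emb_uS_mem : emb A (uS A d) ∈ modularFunctionFieldBar N := by
  rw [emb_uS, ← coe_etaQ_inv N d hd]
  exact ((etaQ N d hd)⁻¹).2

theorem etaQ_eq_emb :
    etaQ N d hd = ⟨emb A (uInvS A d), emb_uInvS_mem N A d hd⟩ :=
  Subtype.ext ((coe_etaQ N d hd).trans (emb_uInvS A d).symm)

theorem etaQ_inv_eq_emb :
    (etaQ N d hd)⁻¹ = ⟨emb A (uS A d), emb_uS_mem N A d hd⟩ :=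
  Subtype.ext ((coe_etaQ_inv N d hd).trans (emb_uS A d).symm)

/-- `g ∈ Rw₁` -/
theorem etaQ_mem_Rw1 : etaQ N d hd ∈ (redDataBar N A).Rw := by
  rw [etaQ_eq_emb N A d hd]
  exact int_mem_Rw (hGF := hasGaussFrac_bar N A) _

/-- `g⁻¹ ∈ Rw₁` -/
theorem etaQ_inv_mem_Rw1 : (etaQ N d hd)⁻¹ ∈ (redDataBar N A).Rw := by
  rw [etaQ_inv_eq_emb N A d hd]
  exact int_mem_Rw (hGF := hasGaussFrac_bar N A) _

/-- **`red₁ g = Δ~(Q)/Δ~(Q^d)`** (any membership proof) -/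
theorem coe_red1_etaQ (hm : etaQ N d hd ∈ (redDataBar N A).Rw) :
    (((redDataBar N A).red ⟨etaQ N d hd, hm⟩ : FresBar N A) : LaurentSeries 𝕜) = uInvS 𝕜 d := by
  have h1 : (⟨etaQ N d hd, hm⟩ : (redDataBar N A).Rw) =
      ⟨⟨emb A (uInvS A d), emb_uInvS_mem N A d hd⟩,
        int_mem_Rw (hGF := hasGaussFrac_bar N A) (emb_uInvS_mem N A d hd)⟩ :=
    Subtype.ext (etaQ_eq_emb N A d hd)
  rw [h1]
  exact (redL_int (hGF := hasGaussFrac_bar N A) _).trans (rd_uInvS A d)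

/-- **`red₁ g⁻¹ = Δ~(Q^d)/Δ~(Q)`** (any membership proof) -/
theorem coe_red1_etaQ_inv (hm : (etaQ N d hd)⁻¹ ∈ (redDataBar N A).Rw) :
    (((redDataBar N A).red ⟨(etaQ N d hd)⁻¹, hm⟩ : FresBar N A) : LaurentSeries 𝕜) = uS 𝕜 d := by
  have h1 : (⟨(etaQ N d hd)⁻¹, hm⟩ : (redDataBar N A).Rw) =
      ⟨⟨emb A (uS A d), emb_uS_mem N A d hd⟩,
        int_mem_Rw (hGF := hasGaussFrac_bar N A) (emb_uS_mem N A d hd)⟩ :=
    Subtype.ext (etaQ_inv_eq_emb N A d hd)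
  rw [h1]
  exact (redL_int (hGF := hasGaussFrac_bar N A) _).trans (rd_uS A d)

/-- `g` is a `w₁`-unit -/
theorem etaQ_not_mem_nonunits_Rw1 : etaQ N d hd ∉ (redDataBar N A).Rw.nonunits := by
  intro hn
  rw [ValuationSubring.mem_nonunits_iff_exists_mem_maximalIdeal] at hn
  obtain ⟨hm, hmax⟩ := hn
  have h0 := ((redDataBar N A).red_eq_zero_iff ⟨etaQ N d hd, hm⟩).2 hmax
  have h1 := coe_red1_etaQ N A d hd hm
  rw [h0, ZeroMemClass.coe_zero] at h1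
  have h2 := uS_mul_uInvS (R := 𝕜) d
  rw [← h1, mul_zero] at h2
  exact zero_ne_one h2

end W1

section W1char

variable (N : ℕ) [NeZero N] (A : ValuationSubring Kbar) (q : ℕ) [Fact q.Prime] [NeZero q]
  (hq : q ∣ N) [CharP (ResidueField A) q]

local notation "𝕜" => ResidueField A

/-- in residue characteristic `q`: **`red₁ (Δ(z)/Δ(qz)) = Δ~^{-(q-1)}`** -/
theorem coe_red1_etaQ_char (hm : etaQ N q hq ∈ (redDataBar N A).Rw) :
    (((redDataBar N A).red ⟨etaQ N q hq, hm⟩ : FresBar N A) : LaurentSeries 𝕜) =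
      deltaInvS 𝕜 ^ (q - 1) := by
  rw [coe_red1_etaQ, Fermat.Agent.GK.Cusp.uInvS_char]

theorem coe_red1_etaQ_inv_char (hm : (etaQ N q hq)⁻¹ ∈ (redDataBar N A).Rw) :
    (((redDataBar N A).red ⟨(etaQ N q hq)⁻¹, hm⟩ : FresBar N A) : LaurentSeries 𝕜) =
      deltaS 𝕜 ^ (q - 1) := by
  rw [coe_red1_etaQ_inv, Fermat.Agent.GK.Cusp.uS_char]

end W1char

section W2

variable {q N : ℕ} [NeZero N] [NeZero q] (A : ValuationSubring Kbar) (h : ExactDvd q N)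

local notation "𝕜" => ResidueField A

/-- `g / q¹² ∈ Rw₂` -/
theorem etaQ_div_mem_Rw2 : etaQ N q h.dvd / (q : FN N) ^ 12 ∈ (redData2 N A h).Rw := by
  rw [mem_Rw2_iff, wAut_etaQ_div]
  exact etaQ_inv_mem_Rw1 N A q h.dvd

/-- **`red₂ (g / q¹²) = Δ~(Q^q)/Δ~(Q)`** -/
theorem coe_red2_etaQ_div (hm : etaQ N q h.dvd / (q : FN N) ^ 12 ∈ (redData2 N A h).Rw) :
    (((redData2 N A h).red ⟨etaQ N q h.dvd / (q : FN N) ^ 12, hm⟩ : FresBar N A) :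
      LaurentSeries 𝕜) = uS 𝕜 q := by
  rw [red2_eq]
  have h1 : (⟨wAut h (etaQ N q h.dvd / (q : FN N) ^ 12), hm⟩ : (redDataBar N A).Rw) =
      ⟨(etaQ N q h.dvd)⁻¹, etaQ_inv_mem_Rw1 N A q h.dvd⟩ := Subtype.ext (wAut_etaQ_div h)
  rw [h1, coe_red1_etaQ_inv]

theorem wAut_etaQ_div_inv :
    wAut h ((etaQ N q h.dvd / (q : FN N) ^ 12)⁻¹) = etaQ N q h.dvd := by
  rw [map_inv₀, wAut_etaQ_div, inv_inv]

/-- `q¹² / g ∈ Rw₂` -/
theorem etaQ_div_inv_mem_Rw2 :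
    (etaQ N q h.dvd / (q : FN N) ^ 12)⁻¹ ∈ (redData2 N A h).Rw := by
  rw [mem_Rw2_iff, wAut_etaQ_div_inv]
  exact etaQ_mem_Rw1 N A q h.dvd

/-- **`red₂ (q¹² / g) = Δ~(Q)/Δ~(Q^q)`** -/
theorem coe_red2_etaQ_div_inv
    (hm : (etaQ N q h.dvd / (q : FN N) ^ 12)⁻¹ ∈ (redData2 N A h).Rw) :
    (((redData2 N A h).red ⟨(etaQ N q h.dvd / (q : FN N) ^ 12)⁻¹, hm⟩ : FresBar N A) :
      LaurentSeries 𝕜) = uInvS 𝕜 q := by
  rw [red2_eq]
  have h1 : (⟨wAut h ((etaQ N q h.dvd / (q : FN N) ^ 12)⁻¹), hm⟩ : (redDataBar N A).Rw) =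
      ⟨etaQ N q h.dvd, etaQ_mem_Rw1 N A q h.dvd⟩ := Subtype.ext (wAut_etaQ_div_inv h)
  rw [h1, coe_red1_etaQ]

/-- `g = q¹² · (w₂-unit)`: so `g ∈ Rw₂` as soon as `q ∈ A` -/
theorem etaQ_mem_Rw2 (hqA : (q : Kbar) ∈ A) : etaQ N q h.dvd ∈ (redData2 N A h).Rw := by
  have h1 : etaQ N q h.dvd = (etaQ N q h.dvd / (q : FN N) ^ 12) * (q : FN N) ^ 12 := by
    rw [div_mul_cancel₀]
    exact pow_ne_zero _ (Nat.cast_ne_zero.2 (NeZero.ne q))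
  rw [h1]
  refine mul_mem (etaQ_div_mem_Rw2 A h) (pow_mem ?_ 12)
  have h2 : ((q : FN N)) = algebraMap Kbar (FN N) (q : Kbar) := (map_natCast _ q).symm
  rw [h2]
  exact ((redData2 N A h).mem_A_iff _).1 hqA

/-- for `A` over `q` (`q ∈ 𝔪_A`): **`g` is a `w₂`-nonunit** (`w₂(g) = 12 w(q) > 0`). -/
theorem etaQ_mem_nonunits_Rw2 (hqA : (q : Kbar) ∈ A.nonunits) :
    etaQ N q h.dvd ∈ (redData2 N A h).Rw.nonunits := by
  have hqA' : (q : Kbar) ∈ A := ValuationSubring.nonunits_le hqA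
  have hq0 : (q : FN N) ≠ 0 := Nat.cast_ne_zero.2 (NeZero.ne q)
  rw [ValuationSubring.mem_nonunits_iff_exists_mem_maximalIdeal]
  refine ⟨etaQ_mem_Rw2 A h hqA', ?_⟩
  rw [IsLocalRing.mem_maximalIdeal, mem_nonunits_iff]
  intro hu
  -- then `q` would be a unit of `Rw₂`, hence of `A`
  obtain ⟨v, hv⟩ := hu.exists_right_inv
  have hv' : etaQ N q h.dvd * (v : FN N) = 1 := congrArg Subtype.val hv
  -- `q⁻¹ = (g/q¹²) * v * q¹¹ ∈ Rw₂`
  have hinv : ((q : FN N))⁻¹ ∈ (redData2 N A h).Rw := by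
    have e : ((q : FN N))⁻¹ =
        (etaQ N q h.dvd / (q : FN N) ^ 12) * (v : FN N) * (q : FN N) ^ 11 := by
      have : (etaQ N q h.dvd / (q : FN N) ^ 12) * (v : FN N) * (q : FN N) ^ 11 =
          (etaQ N q h.dvd * (v : FN N)) * ((q : FN N) ^ 11 / (q : FN N) ^ 12) := by ring
      rw [this, hv', one_mul, pow_succ (q : FN N) 11, div_mul_cancel_left₀ (pow_ne_zero _ hq0)]
    rw [e]
    refine mul_mem (mul_mem (etaQ_div_mem_Rw2 A h) v.2) (pow_mem ?_ 11)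
    have h2 : ((q : FN N)) = algebraMap Kbar (FN N) (q : Kbar) := (map_natCast _ q).symm
    rw [h2]
    exact ((redData2 N A h).mem_A_iff _).1 hqA'
  have h3 : ((q : FN N))⁻¹ = algebraMap Kbar (FN N) ((q : Kbar)⁻¹) := by
    rw [map_inv₀, map_natCast]
  rw [h3] at hinv
  have hA : ((q : Kbar))⁻¹ ∈ A := ((redData2 N A h).mem_A_iff _).2 hinv
  have hq0' : (q : Kbar) ≠ 0 := Nat.cast_ne_zero.2 (NeZero.ne q)
  exact (ValuationSubring.mem_nonunits_iff_exists_mem_maximalIdeal.1 hqA).2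
    |> fun hmax => (IsLocalRing.mem_maximalIdeal _).1 hmax
      (IsUnit.of_mul_eq_one (⟨(q : Kbar)⁻¹, hA⟩ : A) (Subtype.ext (mul_inv_cancel₀ hq0')))

end W2

end Fermat.Agent.GL.Eta
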