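import Fermat.Agent.GL.Eta.EtaQuot
import Fermat.Agent.GL.Cusp.CuspRedData

/-!
# GATE-L prep / GL-ETA (8): `g = Δ(z)/Δ(dz)` at EVERY cusp valuation (helper16)

`c ∈ I0 N` a cusp (coset), `H = herm N c ⟨d, hd⟩` the Hermite data of `diag(d,1) · rep c`
(`= γ' · [[A,B],[0,D]]`, `A D = d`), `redDataCusp N A c` helper18's Gauss reduction datum at `c`.

* `cuspSigma_etaQ` : the expansion of `g` at `c` is `D¹² · Δ(t^N)/Δ(ξ t^e)` (S28 `cuspUInv`);
* `etaQ_div_mem_RwCusp`, `coe_redCusp_etaQ_div` : **`g / D¹²` is a unit of the cusp valuation**,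
  with reduction `Δ~(t^N)/Δ~(ξ~ t^e)`; hence `w_c(g) = 12·w(D)`;
* `etaQ_mem_RwCusp` : `g ∈ Rw_c` always (`D ∈ ℕ`).
-/

set_option autoImplicit false
set_option linter.unusedSectionVars false

noncomputable section

namespace Fermat.Agent.GL.Eta

open HahnSeries ModularCurve IsLocalRing
open Fermat.Agent.S24 Fermat.Agent.S28 Fermat.Agent.S28.CuspExp Fermat.Agent.S28.Assemble
open Fermat.Agent.S24_helper62 Fermat.Agent.S24.Degree
open Fermat.Agent.GJ.J1 Fermat.Agent.GJ.J1.Val Fermat.Agent.GL.CuspVal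

section Expansion

variable (N : ℕ) [NeZero N] (d : ℕ) [NeZero d] (hd : d ∣ N)

/-- the index of the generator `Δ(Q)/Δ(Q^d)` -/
abbrev idxUInv : GenIdx N := (⟨d, hd⟩, 2)

theorem cuspSigma_etaQ_eq_sK (c : I0 N) :
    cuspSigma N c (etaQ N d hd) =
      sK N iotaC (hzetaBar N) (hDBar N) c (idxUInv N d hd) := by
  have hmem : genFam Kbar N (idxUInv N d hd) ∈ bigField Kbar N := uInvS_mem_bigField Kbar N hd
  have h1 : cuspSigma N c (etaQ N d hd) =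
      (cuspInp N).σ c ⟨genFam Kbar N (idxUInv N d hd), hmem⟩ := by
    rw [cuspSigma, AlgHom.comp_apply]
    congr 1
    apply Subtype.ext
    exact coe_etaQ N d hd
  rw [h1, (cuspInp N).σ_gen c (idxUInv N d hd) hmem]
  rfl

/-- the `D`-free part of the expansion: `Δ(t^N)/Δ(ξ t^e)` -/
theorem cuspUInv_eq_C_mul (R : Type*) [CommRing R] (ξ δ : Rˣ) (e : ℕ) [NeZero e] :
    cuspUInv R N ξ δ e = HahnSeries.C ((δ : R) ^ 12) * cuspUInv R N ξ 1 e := by
  rw [cuspUInv, cuspUInv, Units.val_one, one_pow, map_one, one_mul, mul_assoc]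

/-- **the expansion of `g` at the cusp `c`**: `D¹² · Δ(t^N)/Δ(ξ t^e)` -/
theorem cuspSigma_etaQ (c : I0 N) :
    cuspSigma N c (etaQ N d hd) =
      HahnSeries.C ((((herm N c ⟨d, hd⟩).Dn : ℕ) : Kbar) ^ 12) *
        cuspUInv Kbar N (xi (zetaBar N) N (herm N c ⟨d, hd⟩).Dn (herm N c ⟨d, hd⟩).B) 1
          (expoX N (idxUInv N d hd) (herm N c ⟨d, hd⟩)) := by
  rw [cuspSigma_etaQ_eq_sK, sK_eq]
  show cuspUInv Kbar N _ _ _ = _
  rw [cuspUInv_eq_C_mul]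
  have hξ : Units.map ((algebraMap Kbar Kbar : Kbar →+* Kbar) : Kbar →* Kbar)
      (xiO N iotaC (hzetaBar N) c ⟨d, hd⟩) =
      xi (zetaBar N) N (herm N c ⟨d, hd⟩).Dn (herm N c ⟨d, hd⟩).B := by
    rw [← xiO_eq]
    exact Units.ext rfl
  have hδ : ((Units.map ((algebraMap Kbar Kbar : Kbar →+* Kbar) : Kbar →* Kbar)
      (deltaO N (hDBar N) c ⟨d, hd⟩) : Kbarˣ) : Kbar) =
      (((herm N c ⟨d, hd⟩).Dn : ℕ) : Kbar) := by
    rw [Units.coe_map, deltaO, IsUnit.unit_spec]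
    rfl
  rw [hξ, hδ]

end Expansion

section Val

variable (N : ℕ) [NeZero N] (A : ValuationSubring Kbar) (d : ℕ) [NeZero d] (hd : d ∣ N) (c : I0 N)

local notation "𝕜" => ResidueField A

/-- the `D`-entry of the Hermite form of `diag(d,1) · rep c` (a divisor of `d`) -/
abbrev cuspD : ℕ := (herm N c ⟨d, hd⟩).Dn

/-- the exponent of `t` -/
abbrev cuspE : ℕ := expoX N (idxUInv N d hd) (herm N c ⟨d, hd⟩)

/-- the twist `ζ_D^B` as a unit of `A` -/
def xiA : Aˣ := zetaA N A ^ ((((N / cuspD N d hd c : ℕ) : ℤ)) * (herm N c ⟨d, hd⟩).B)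

/-- the twist in the residue field -/
abbrev xiRes : 𝕜ˣ := xi (zetaRes N A) N (cuspD N d hd c) (herm N c ⟨d, hd⟩).B

theorem cuspUInv_eq_emb :
    cuspUInv Kbar N (xi (zetaBar N) N (cuspD N d hd c) (herm N c ⟨d, hd⟩).B) 1 (cuspE N d hd c) =
      emb A (cuspUInv A N (xiA N A d hd c) 1 (cuspE N d hd c)) := by
  rw [emb, coeffMap_cuspUInv, map_one, xiA, map_zpow, map_subtype_zetaA, xi]

theorem cuspU_eq_emb :
    cuspU Kbar N (xi (zetaBar N) N (cuspD N d hd c) (herm N c ⟨d, hd⟩).B) 1 (cuspE N d hd c) =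
      emb A (cuspU A N (xiA N A d hd c) 1 (cuspE N d hd c)) := by
  rw [emb, coeffMap_cuspU, map_one, xiA, map_zpow, map_subtype_zetaA, xi]

theorem rd_cuspUInv :
    rd A (cuspUInv A N (xiA N A d hd c) 1 (cuspE N d hd c)) =
      cuspUInv 𝕜 N (xiRes N A d hd c) 1 (cuspE N d hd c) := by
  rw [rd, coeffMap_cuspUInv, map_one, xiA, map_zpow]
  rfl

theorem rd_cuspU :
    rd A (cuspU A N (xiA N A d hd c) 1 (cuspE N d hd c)) =
      cuspU 𝕜 N (xiRes N A d hd c) 1 (cuspE N d hd c) := by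
  rw [rd, coeffMap_cuspU, map_one, xiA, map_zpow]
  rfl

theorem cuspD_ne_zero : ((cuspD N d hd c : ℕ) : FN N) ≠ 0 := by
  have h : cuspD N d hd c ≠ 0 := fun h0 =>
    NeZero.ne N (Nat.eq_zero_of_zero_dvd (h0 ▸ herm_Dn_dvd N c ⟨d, hd⟩))
  exact Nat.cast_ne_zero.2 h

/-- the expansion of `g / D¹²` at `c` -/
theorem cuspSigma_etaQ_div :
    cuspSigma N c (etaQ N d hd / ((cuspD N d hd c : ℕ) : FN N) ^ 12) =
      emb A (cuspUInv A N (xiA N A d hd c) 1 (cuspE N d hd c)) := by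
  have hD0 : (((cuspD N d hd c : ℕ) : Kbar)) ≠ 0 := by
    have h : cuspD N d hd c ≠ 0 := fun h0 =>
      NeZero.ne N (Nat.eq_zero_of_zero_dvd (h0 ▸ herm_Dn_dvd N c ⟨d, hd⟩))
    exact Nat.cast_ne_zero.2 h
  have hC : (HahnSeries.C ((((cuspD N d hd c : ℕ) : Kbar)) ^ 12) : LaurentSeries Kbar) ≠ 0 := by
    intro h0
    exact pow_ne_zero 12 hD0 (HahnSeries.C_injective (by rw [h0, map_zero]))
  rw [map_div₀, map_pow, map_natCast, cuspSigma_etaQ, ← cuspUInv_eq_emb]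
  have e : ((cuspD N d hd c : ℕ) : LaurentSeries Kbar) ^ 12 =
      HahnSeries.C ((((cuspD N d hd c : ℕ) : Kbar)) ^ 12) := by
    rw [map_pow, map_natCast]
  rw [e, mul_div_assoc, mul_comm, div_mul_cancel₀ _ hC]

/-- the expansion of `D¹² / g` at `c` -/
theorem cuspSigma_etaQ_div_inv :
    cuspSigma N c (etaQ N d hd / ((cuspD N d hd c : ℕ) : FN N) ^ 12)⁻¹ =
      emb A (cuspU A N (xiA N A d hd c) 1 (cuspE N d hd c)) := by
  rw [map_inv₀, cuspSigma_etaQ_div N A d hd c, ← cuspU_eq_emb, ← cuspUInv_eq_emb]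
  exact (eq_inv_of_mul_eq_one_left (cuspU_mul_cuspUInv Kbar N _ _ _)).symm

/-- **`g / D¹²` lies in the valuation ring of the cusp `c`** -/
theorem etaQ_div_mem_RwCusp :
    etaQ N d hd / ((cuspD N d hd c : ℕ) : FN N) ^ 12 ∈ (redDataCusp N A c).Rw :=
  mem_RwCusp_of_int N A c _ (cuspSigma_etaQ_div N A d hd c)

/-- **and so does its inverse**: `w_c(g) = 12 · w(D)` -/
theorem etaQ_div_inv_mem_RwCusp :
    (etaQ N d hd / ((cuspD N d hd c : ℕ) : FN N) ^ 12)⁻¹ ∈ (redDataCusp N A c).Rw :=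
  mem_RwCusp_of_int N A c _ (cuspSigma_etaQ_div_inv N A d hd c)

/-- **`red_c (g / D¹²) = Δ~(t^N)/Δ~(ξ~ t^e)`** -/
theorem coe_redCusp_etaQ_div
    (hm : etaQ N d hd / ((cuspD N d hd c : ℕ) : FN N) ^ 12 ∈ (redDataCusp N A c).Rw) :
    (((redDataCusp N A c).red ⟨_, hm⟩ : FresCusp N A c) : LaurentSeries 𝕜) =
      cuspUInv 𝕜 N (xiRes N A d hd c) 1 (cuspE N d hd c) := by
  rw [coe_redCusp_of_int N A c _ (cuspSigma_etaQ_div N A d hd c) hm, rd_cuspUInv]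

theorem coe_redCusp_etaQ_div_inv
    (hm : (etaQ N d hd / ((cuspD N d hd c : ℕ) : FN N) ^ 12)⁻¹ ∈ (redDataCusp N A c).Rw) :
    (((redDataCusp N A c).red ⟨_, hm⟩ : FresCusp N A c) : LaurentSeries 𝕜) =
      cuspU 𝕜 N (xiRes N A d hd c) 1 (cuspE N d hd c) := by
  rw [coe_redCusp_of_int N A c _ (cuspSigma_etaQ_div_inv N A d hd c) hm, rd_cuspU]

/-- `g` lies in EVERY cusp valuation ring (`D` is an integer) -/
theorem etaQ_mem_RwCusp : etaQ N d hd ∈ (redDataCusp N A c).Rw := by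
  have h1 : etaQ N d hd = (etaQ N d hd / ((cuspD N d hd c : ℕ) : FN N) ^ 12) *
      ((cuspD N d hd c : ℕ) : FN N) ^ 12 := by
    rw [div_mul_cancel₀ _ (pow_ne_zero _ (cuspD_ne_zero N d hd c))]
  rw [h1]
  refine mul_mem (etaQ_div_mem_RwCusp N A d hd c) (pow_mem ?_ 12)
  have h2 : (((cuspD N d hd c : ℕ) : FN N)) =
      algebraMap Kbar (FN N) ((cuspD N d hd c : ℕ) : Kbar) := (map_natCast _ _).symm
  rw [h2]
  exact ((redDataCusp N A c).mem_A_iff _).1 (natCast_mem A _)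

/-! ### the value of `D` -/

/-- `gcd(c₁₀, d) · D = d` -/
theorem gcd_mul_cuspD :
    Nat.gcd ((rep N c) 1 0).natAbs d * cuspD N d hd c = d := by
  have hd0 : 0 < d := Nat.pos_of_ne_zero (NeZero.ne d)
  rw [← (herm N c ⟨d, hd⟩).An_eq]
  exact (herm N c ⟨d, hd⟩).An_mul_Dn hd0

theorem cuspD_dvd : cuspD N d hd c ∣ d :=
  (herm N c ⟨d, hd⟩).Dn_dvd (Nat.pos_of_ne_zero (NeZero.ne d))

/-- `D = 1` iff `d ∣ c₁₀` (the cusp is "of type `∞`" for `d`) -/
theorem cuspD_eq_one_iff : cuspD N d hd c = 1 ↔ (d : ℤ) ∣ (rep N c) 1 0 := by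
  have hd0 : 0 < d := Nat.pos_of_ne_zero (NeZero.ne d)
  have h := gcd_mul_cuspD N d hd c
  constructor
  · intro h1
    rw [h1, mul_one] at h
    have h2 : (d : ℤ) ∣ (((rep N c) 1 0).natAbs : ℤ) := by
      rw [Int.natCast_dvd_natCast]
      exact Nat.gcd_eq_right_iff_dvd.mp h
    exact (Int.dvd_natAbs).mp h2
  · intro h1
    have h2 : d ∣ ((rep N c) 1 0).natAbs := by
      rw [← Int.natCast_dvd_natCast]
      exact (Int.dvd_natAbs).mpr h1
    rw [Nat.gcd_eq_right_iff_dvd.mpr h2] at h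
    exact Nat.eq_of_mul_eq_mul_left hd0 (by rw [h, mul_one])

/-- for `d = q` PRIME: `D = q` iff `q ∤ c₁₀` (the cusp is "of type `0`" for `q`) -/
theorem cuspD_eq_self_of_not_dvd (hq : d.Prime) (hc : ¬ (d : ℤ) ∣ (rep N c) 1 0) :
    cuspD N d hd c = d := by
  rcases (Nat.dvd_prime hq).1 (cuspD_dvd N d hd c) with h1 | h1
  · exact absurd ((cuspD_eq_one_iff N d hd c).1 h1) hc
  · exact h1

/-- at a cusp with `d ∣ c₁₀`: **`g` is a unit of the cusp valuation** -/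
theorem etaQ_inv_mem_RwCusp_of_dvd (hc : (d : ℤ) ∣ (rep N c) 1 0) :
    (etaQ N d hd)⁻¹ ∈ (redDataCusp N A c).Rw := by
  have h := etaQ_div_inv_mem_RwCusp N A d hd c
  have h1 : (cuspD N d hd c : ℕ) = 1 := (cuspD_eq_one_iff N d hd c).2 hc
  rw [h1] at h
  simpa using h

end Val

end Fermat.Agent.GL.Eta
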