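import Mathlib

/-!
# GATE-L prep / GL-ETA (1): derivations and function fields of one variable (helper16)

`F / k` a field extension in characteristic `0`, `t : F` with `F` algebraic over `k⟮t⟯`,
`ι : F →ₐ[k] Ω` an embedding into an ambient field with a `k`-derivation `D` (application:
`F = F_N`, `Ω = ℚ̄((Q))`, `D = Q d/dQ`).

* `exists_mul_of_isAlgebraic` : `D (ι f) = ι b * D (ι t)` for some `b : F` ("`b = df/dt ∈ F`").
* `dOver` : the resulting `k`-derivation `d/dt` of `F`, `dOver_spec`, `dOver_self`.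
* `derivation_eq_zero` : a `k`-derivation of `F` killing `t` is zero.
* `algEquiv_dOver` : `σ (d f / d t) = d (σ f) / d (σ t)` for `σ ∈ Aut(F / k)`.
* `algEquiv_dOver_swap` : if `σ` swaps `s` and `t` then `σ (ds/dt) * (ds/dt) = 1`.
-/

set_option autoImplicit false

namespace Fermat.Agent.GL.Eta

open Polynomial IntermediateField

section LemmaA

variable {k F Ω : Type*} [Field k] [Field F] [Field Ω] [Algebra k F] [Algebra k Ω]

/-- step 1: on `k⟮t⟯` the derivation is a multiple of `D t`. -/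
theorem exists_mul_of_mem_adjoin (ι : F →ₐ[k] Ω) (D : Derivation k Ω Ω) (t : F) {a : F}
    (ha : a ∈ k⟮t⟯) : ∃ b : F, D (ι a) = ι b * D (ι t) := by
  induction ha using IntermediateField.adjoin_induction with
  | mem x hx =>
    rw [Set.mem_singleton_iff] at hx
    subst hx
    exact ⟨1, by simp⟩
  | algebraMap x =>
    refine ⟨0, ?_⟩
    rw [AlgHom.commutes, Derivation.map_algebraMap, map_zero, zero_mul]
  | add x y _ _ hx hy =>
    obtain ⟨b, hb⟩ := hx
    obtain ⟨c, hc⟩ := hy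
    exact ⟨b + c, by rw [map_add, map_add, hb, hc, map_add]; ring⟩
  | inv x _ hx =>
    obtain ⟨b, hb⟩ := hx
    refine ⟨-(x⁻¹ ^ 2) * b, ?_⟩
    rw [map_inv₀, Derivation.leibniz_inv, hb, smul_eq_mul]
    simp only [map_mul, map_neg, map_pow, map_inv₀]
    ring
  | mul x y _ _ hx hy =>
    obtain ⟨b, hb⟩ := hx
    obtain ⟨c, hc⟩ := hy
    refine ⟨x * c + y * b, ?_⟩
    rw [map_mul, Derivation.leibniz, hb, hc, smul_eq_mul, smul_eq_mul]
    simp only [map_add, map_mul]
    ring

/-- step 2: the chain rule for a polynomial with coefficients in `k⟮t⟯`. -/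
theorem exists_deriv_aeval (ι : F →ₐ[k] Ω) (D : Derivation k Ω Ω) (t : F) (x : F)
    (p : (k⟮t⟯)[X]) :
    ∃ q : F, D (ι (aeval x p)) = ι q * D (ι t) + ι (aeval x (derivative p)) * D (ι x) := by
  induction p using Polynomial.induction_on' with
  | add p₁ p₂ h₁ h₂ =>
    obtain ⟨q₁, h₁⟩ := h₁
    obtain ⟨q₂, h₂⟩ := h₂
    refine ⟨q₁ + q₂, ?_⟩
    simp only [map_add, h₁, h₂]
    ring
  | monomial n a =>
    obtain ⟨b, hb⟩ := exists_mul_of_mem_adjoin ι D t a.2
    refine ⟨b * x ^ n, ?_⟩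
    have h1 : algebraMap (↥k⟮t⟯) F a = (a : F) := rfl
    have h2 : algebraMap (↥k⟮t⟯) F (a * (n : ↥k⟮t⟯)) = (a : F) * (n : F) := by
      rw [map_mul, map_natCast]
      rfl
    rw [aeval_monomial, derivative_monomial, aeval_monomial, h1, h2]
    simp only [map_mul, map_pow, map_natCast, Derivation.leibniz, Derivation.leibniz_pow, hb,
      smul_eq_mul, nsmul_eq_mul]
    ring

variable [CharZero k]

/-- **Lemma A**: `D (ι f) = ι b * D (ι t)` for every `f : F` when `F` is algebraic over `k⟮t⟯`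
(characteristic `0`). -/
theorem exists_mul_of_isAlgebraic (ι : F →ₐ[k] Ω) (D : Derivation k Ω Ω) (t : F)
    [Algebra.IsAlgebraic (↥k⟮t⟯) F] (f : F) : ∃ b : F, D (ι f) = ι b * D (ι t) := by
  have hchar : CharZero (↥k⟮t⟯) := charZero_of_injective_algebraMap (algebraMap k (↥k⟮t⟯)).injective
  have halg : IsIntegral (↥k⟮t⟯) f := (Algebra.IsAlgebraic.isAlgebraic f).isIntegral
  set p := minpoly (↥k⟮t⟯) f with hp
  have hsep : p.Separable := (minpoly.irreducible halg).separable
  have h0 : aeval f p = 0 := minpoly.aeval _ _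
  have hne : aeval f (derivative p) ≠ 0 := hsep.aeval_derivative_ne_zero h0
  obtain ⟨q, hq⟩ := exists_deriv_aeval ι D t f p
  rw [h0, map_zero, map_zero] at hq
  refine ⟨-(q / aeval f (derivative p)), ?_⟩
  have hne' : ι (aeval f (derivative p)) ≠ 0 := (map_ne_zero ι.toRingHom).2 hne
  have h2 : D (ι f) * ι (aeval f (derivative p)) = -(ι q * D (ι t)) := by
    linear_combination (-1 : Ω) * hq
  rw [map_neg, map_div₀,
    show -(ι q / ι (aeval f (derivative p))) * D (ι t)
      = -(ι q * D (ι t)) / ι (aeval f (derivative p)) by ring,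
    eq_div_iff hne']
  exact h2

end LemmaA

section Deriv

variable {k F Ω : Type*} [Field k] [Field F] [Field Ω] [Algebra k F] [Algebra k Ω] [CharZero k]

/-- `df/dt` as an element of `F` -/
noncomputable def dOverFun (ι : F →ₐ[k] Ω) (D : Derivation k Ω Ω) (t : F)
    [Algebra.IsAlgebraic (↥k⟮t⟯) F] (f : F) : F :=
  (exists_mul_of_isAlgebraic ι D t f).choose

theorem dOverFun_spec (ι : F →ₐ[k] Ω) (D : Derivation k Ω Ω) (t : F)
    [Algebra.IsAlgebraic (↥k⟮t⟯) F] (f : F) : D (ι f) = ι (dOverFun ι D t f) * D (ι t) :=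
  (exists_mul_of_isAlgebraic ι D t f).choose_spec

theorem dOverFun_unique (ι : F →ₐ[k] Ω) (D : Derivation k Ω Ω) (t : F)
    [Algebra.IsAlgebraic (↥k⟮t⟯) F] (ht : D (ι t) ≠ 0) {f b : F} (h : D (ι f) = ι b * D (ι t)) :
    dOverFun ι D t f = b := by
  have h1 := dOverFun_spec ι D t f
  rw [h] at h1
  exact (ι.toRingHom.injective (mul_right_cancel₀ ht h1)).symm

/-- **the derivation `d/dt` of `F`**, induced by `D` on the ambient field (`D (ι t) ≠ 0`). -/
noncomputable def dOver (ι : F →ₐ[k] Ω) (D : Derivation k Ω Ω) (t : F)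
    [Algebra.IsAlgebraic (↥k⟮t⟯) F] (ht : D (ι t) ≠ 0) : Derivation k F F :=
  Derivation.mk'
    { toFun := dOverFun ι D t
      map_add' := fun x y => by
        apply dOverFun_unique ι D t ht
        rw [map_add, map_add, dOverFun_spec ι D t x, dOverFun_spec ι D t y, map_add]
        ring
      map_smul' := fun c x => by
        apply dOverFun_unique ι D t ht
        rw [map_smul ι, D.map_smul, dOverFun_spec ι D t x, RingHom.id_apply, map_smul ι,
          smul_mul_assoc] }
    (fun x y => by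
      show dOverFun ι D t (x * y) = x • dOverFun ι D t y + y • dOverFun ι D t x
      apply dOverFun_unique ι D t ht
      rw [map_mul, Derivation.leibniz, dOverFun_spec ι D t x, dOverFun_spec ι D t y]
      simp only [smul_eq_mul, map_add, map_mul]
      ring)

theorem dOver_spec (ι : F →ₐ[k] Ω) (D : Derivation k Ω Ω) (t : F)
    [Algebra.IsAlgebraic (↥k⟮t⟯) F] (ht : D (ι t) ≠ 0) (f : F) :
    D (ι f) = ι (dOver ι D t ht f) * D (ι t) := dOverFun_spec ι D t f

theorem dOver_eq_div (ι : F →ₐ[k] Ω) (D : Derivation k Ω Ω) (t : F)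
    [Algebra.IsAlgebraic (↥k⟮t⟯) F] (ht : D (ι t) ≠ 0) (f : F) :
    ι (dOver ι D t ht f) = D (ι f) / D (ι t) := by
  rw [dOver_spec ι D t ht f, mul_div_cancel_right₀ _ ht]

theorem dOver_self (ι : F →ₐ[k] Ω) (D : Derivation k Ω Ω) (t : F)
    [Algebra.IsAlgebraic (↥k⟮t⟯) F] (ht : D (ι t) ≠ 0) : dOver ι D t ht t = 1 :=
  dOverFun_unique ι D t ht (by rw [map_one, one_mul])

/-- **Lemma U**: a `k`-derivation of `F` killing `t` is zero. -/
theorem derivation_eq_zero (E : Derivation k F F) (t : F) [Algebra.IsAlgebraic (↥k⟮t⟯) F]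
    (h : E t = 0) : E = 0 := by
  ext f
  obtain ⟨b, hb⟩ := exists_mul_of_isAlgebraic (AlgHom.id k F) E t f
  simpa [h] using hb

/-- conjugation of a derivation by an automorphism -/
noncomputable def conjDer (σ : F ≃ₐ[k] F) (E : Derivation k F F) : Derivation k F F :=
  Derivation.mk' (σ.toLinearMap ∘ₗ E.toLinearMap ∘ₗ σ.symm.toLinearMap)
    (fun x y => by
      simp only [LinearMap.coe_comp, Function.comp_apply, AlgEquiv.toLinearMap_apply,
        Derivation.coeFn_coe, map_mul, Derivation.leibniz, smul_eq_mul, map_add,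
        AlgEquiv.apply_symm_apply])

@[simp] theorem conjDer_apply (σ : F ≃ₐ[k] F) (E : Derivation k F F) (f : F) :
    conjDer σ E f = σ (E (σ.symm f)) := rfl

/-- **transport by an automorphism**: `σ (df/dt) = d(σ f)/d(σ t)`. -/
theorem algEquiv_dOver (ι : F →ₐ[k] Ω) (D : Derivation k Ω Ω) (σ : F ≃ₐ[k] F) (t : F)
    [Algebra.IsAlgebraic (↥k⟮t⟯) F] [Algebra.IsAlgebraic (↥k⟮σ t⟯) F]
    (ht : D (ι t) ≠ 0) (hu : D (ι (σ t)) ≠ 0) (f : F) :
    σ (dOver ι D t ht f) = dOver ι D (σ t) hu (σ f) := by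
  have h0 : conjDer σ (dOver ι D t ht) - dOver ι D (σ t) hu = 0 := by
    apply derivation_eq_zero _ (σ t)
    rw [Derivation.sub_apply, conjDer_apply, AlgEquiv.symm_apply_apply, dOver_self, dOver_self,
      map_one, sub_self]
  have h1 := congrArg (fun E : Derivation k F F => E (σ f)) h0
  simp only [Derivation.sub_apply, conjDer_apply, AlgEquiv.symm_apply_apply,
    Derivation.coe_zero, Pi.zero_apply] at h1
  exact sub_eq_zero.1 h1

/-- **swap**: if `σ s = t` and `σ t = s` then `σ (ds/dt) * (ds/dt) = 1`. -/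
theorem algEquiv_dOver_swap (ι : F →ₐ[k] Ω) (D : Derivation k Ω Ω) (σ : F ≃ₐ[k] F) (s t : F)
    [Algebra.IsAlgebraic (↥k⟮t⟯) F] [Algebra.IsAlgebraic (↥k⟮s⟯) F]
    (hst : σ s = t) (hts : σ t = s) (ht : D (ι t) ≠ 0) (hs : D (ι s) ≠ 0) :
    σ (dOver ι D t ht s) * dOver ι D t ht s = 1 := by
  have hu : D (ι (σ t)) ≠ 0 := by rwa [hts]
  have : Algebra.IsAlgebraic (↥k⟮σ t⟯) F := by rwa [hts]
  rw [algEquiv_dOver ι D σ t ht hu s]
  apply ι.toRingHom.injective
  show ι (_ * _) = ι 1
  rw [map_mul, map_one, dOver_eq_div, dOver_eq_div, hst, hts, div_mul_div_comm,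
    mul_comm, div_self (mul_ne_zero hs ht)]

end Deriv

end Fermat.Agent.GL.Eta
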