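import Fermat.Agent.GL.Eta.DerivField
import Fermat.Agent.GJ.Haupt.Theta6
import Fermat.Agent.S24_helper76.CuspFinal

/-!
# GATE-L prep / GL-ETA (2): the eta quotient `Δ(z)/Δ(dz)` as an ELEMENT of `F_N`, `d ∣ N` (helper16)

Purely algebraic membership (no modularity, no descent `ℂ → ℚ̄`):
`θ := Q d/dQ`; `(θ j)⁶ = j⁴ (j - 1728)³ Δ` (landed `theta6_one`) and the chain rule
`θ (f(Q^d)) = d · (θ f)(Q^d)` give, with `c := θ j_d / θ j = d j_d / d j ∈ F_N`,

  `Δ(Q) / Δ(Q^d) = d⁶ · c⁻⁶ · j_d⁴ (j_d - 1728)³ / (j⁴ (j - 1728)³)`.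

* `thetaDer K` : `θ` as a `K`-derivation of `K((Q))`; `thetaL_qExpand` (chain rule).
* `uInvS_mul_eq` : the identity above, division-free, over ANY commutative ring.
* `cF N d hd : FN N` (`= d j_d / d j`), `coe_cF_mul`;
* **`etaQ N d hd : FN N`** with **`coe_etaQ : (etaQ N d hd : ℚ̄((Q))) = uInvS ℚ̄ d`**
  (`= Δ(Q)/Δ(Q^d)`, S28), `etaQ_ne_zero`.
-/

set_option autoImplicit false

noncomputable section

namespace Fermat.Agent.GL.Eta

open ModularCurve IntermediateField
open Fermat.Agent.S28 Fermat.Agent.S24 Fermat.Agent.S24.Degree Fermat.Agent.GJ.Haupt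

/-! ### series identities over any commutative ring -/

section Series

variable {R : Type*} [CommRing R]

/-- **chain rule** for `Q ↦ Q^d`. -/
theorem thetaL_qExpand (d : ℕ) [NeZero d] (x : LaurentSeries R) :
    thetaL (qExpand R d x) = HahnSeries.C (d : R) * qExpand R d (thetaL x) := by
  ext n
  rw [thetaL_coeff, HahnSeries.C_mul_eq_smul, HahnSeries.coeff_smul, smul_eq_mul]
  by_cases hn : (d : ℤ) ∣ n
  · obtain ⟨k, rfl⟩ := hn
    rw [qExpand_coeff_mul, qExpand_coeff_mul, thetaL_coeff]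
    push_cast
    ring
  · rw [qExpand_coeff_of_not_dvd d x hn, qExpand_coeff_of_not_dvd d _ hn, mul_zero, mul_zero]

theorem qExpand_deltaInvS_mul (d : ℕ) [NeZero d] :
    qExpand R d (deltaInvS R) * qExpand R d (deltaS R) = 1 := by
  rw [← map_mul, mul_comm, deltaS_mul_deltaInvS, map_one]

/-- `(θ j_d)⁶ = d⁶ · j_d⁴ (j_d - 1728)³ Δ(Q^d)`. -/
theorem theta6_jS (d : ℕ) [NeZero d] :
    thetaL (jS R d) ^ 6 =
      HahnSeries.C ((d : R) ^ 6) *
        (jS R d ^ 4 * (jS R d - 1728) ^ 3 * qExpand R d (deltaS R)) := by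
  have h := congrArg (qExpand R d) (theta6_one (A := R))
  simp only [map_pow, map_mul, map_sub, map_ofNat] at h
  rw [jS, thetaL_qExpand, mul_pow, h, map_pow]

/-- **the eta quotient through `θ j`, `θ j_d`** (division-free, any commutative ring). -/
theorem uInvS_mul_eq (d : ℕ) [NeZero d] :
    uInvS R d * thetaL (jS R d) ^ 6 * (jqModC R ^ 4 * (jqModC R - 1728) ^ 3) =
      HahnSeries.C ((d : R) ^ 6) *
        (thetaL (jqModC R) ^ 6 * (jS R d ^ 4 * (jS R d - 1728) ^ 3)) := by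
  rw [theta6_jS, theta6_one, uInvS]
  have h := qExpand_deltaInvS_mul (R := R) d
  linear_combination (HahnSeries.C ((d : R) ^ 6) * deltaS R * jS R d ^ 4 * (jS R d - 1728) ^ 3 *
    (jqModC R ^ 4 * (jqModC R - 1728) ^ 3)) * h

end Series

/-! ### `θ` as a derivation (module structure of the `K`-algebra `K((Q))`) -/

section Der

variable (K : Type*) [Field K]

theorem algebraMap_laurent_eq_C (c : K) :
    algebraMap K (LaurentSeries K) c = HahnSeries.C c := by
  rw [HahnSeries.algebraMap_apply', PowerSeries.algebraMap_apply, Algebra.algebraMap_self,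
    RingHom.id_apply, HahnSeries.ofPowerSeries_C]

/-- `θ = Q d/dQ` as a `K`-derivation of the field `K((Q))` -/
def thetaDer : @Derivation K (LaurentSeries K) (LaurentSeries K) _ _ _ _ _ Algebra.toModule :=
  letI : Module K (LaurentSeries K) := Algebra.toModule
  { toFun := thetaL
    map_add' := thetaL_add
    map_smul' := fun c x => by
      rw [RingHom.id_apply, Algebra.smul_def, Algebra.smul_def, algebraMap_laurent_eq_C,
        thetaL_mul, thetaL_C, zero_mul, zero_add]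
    map_one_eq_zero' := thetaL_one
    leibniz' := fun x y => by
      show thetaL (x * y) = x • thetaL y + y • thetaL x
      rw [thetaL_mul, smul_eq_mul, smul_eq_mul]
      ring }

@[simp] theorem thetaDer_apply (x : LaurentSeries K) : thetaDer K x = thetaL x := rfl

end Der

/-! ### nonvanishing over a field -/

section Field

variable (K : Type*) [Field K]

theorem jqModC_coeff_neg_one : (jqModC K).coeff (-1) = 1 := by
  exact (hasLead_jqModC K).1

theorem jqModC_ne_zero' : jqModC K ≠ 0 := fun h => by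
  have := jqModC_coeff_neg_one K
  rw [h, HahnSeries.coeff_zero] at this
  exact zero_ne_one this

theorem jqModC_sub_ne_zero : jqModC K - 1728 ≠ 0 := fun h => by
  have h1 := congrArg (fun x : LaurentSeries K => x.coeff (-1)) h
  simp only [HahnSeries.coeff_sub, HahnSeries.coeff_zero, jqModC_coeff_neg_one] at h1
  have h2 : ((1728 : LaurentSeries K)).coeff (-1) = 0 := coeff_ofNat_of_ne 1728 (by decide)
  rw [h2, sub_zero] at h1
  exact one_ne_zero h1

theorem thetaL_jqModC_ne_zero : thetaL (jqModC K) ≠ 0 := fun h => by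
  have h1 := congrArg (fun x : LaurentSeries K => x.coeff (-1)) h
  simp only [thetaL_coeff, jqModC_coeff_neg_one, HahnSeries.coeff_zero] at h1
  simp at h1

theorem jS_ne_zero' (d : ℕ) [NeZero d] : jS K d ≠ 0 := fun h =>
  jqModC_ne_zero' K (qExpand_injective d (by rw [← jS, h, map_zero]))

theorem jS_sub_ne_zero (d : ℕ) [NeZero d] : jS K d - 1728 ≠ 0 := fun h => by
  apply jqModC_sub_ne_zero K
  apply qExpand_injective d
  rw [map_sub, map_ofNat, map_zero]
  exact h

variable [CharZero K]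

theorem thetaL_jS_ne_zero (d : ℕ) [NeZero d] : thetaL (jS K d) ≠ 0 := by
  rw [jS, thetaL_qExpand]
  intro h
  have hd : (d : K) ≠ 0 := Nat.cast_ne_zero.2 (NeZero.ne d)
  have hC : HahnSeries.C (d : K) ≠ (0 : LaurentSeries K) := fun h0 =>
    hd (HahnSeries.C_injective (by rw [h0, map_zero]))
  have h2 : qExpand K d (thetaL (jqModC K)) = 0 := by
    rcases mul_eq_zero.1 h with h' | h'
    · exact absurd h' hC
    · exact h'
  exact thetaL_jqModC_ne_zero K (qExpand_injective d (by rw [h2, map_zero]))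


end Field

/-! ### the elements of `F_N` -/

section FN

variable (N : ℕ) [NeZero N]

instance isAlgebraic_jF : Algebra.IsAlgebraic (↥Kbar⟮jF N⟯) (FN N) :=
  haveI := Fermat.Agent.S24.Cusp.finiteDimensional_jF N
  Algebra.IsAlgebraic.of_finite _ _

/-- the inclusion `F_N ⊂ ℚ̄((Q))` -/
abbrev incl : FN N →ₐ[Kbar] LaurentSeries Kbar := (modularFunctionFieldBar N).val

theorem theta_incl_jF_ne_zero : thetaDer Kbar (incl N (jF N)) ≠ 0 := by
  rw [thetaDer_apply]
  show thetaL ((jF N : FN N) : LaurentSeries Kbar) ≠ 0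
  rw [coe_jF']
  exact thetaL_jqModC_ne_zero Kbar

/-- `c = d j_d / d j ∈ F_N` -/
def cF (d : ℕ) [NeZero d] (hd : d ∣ N) : FN N :=
  dOver (incl N) (thetaDer Kbar) (jF N) (theta_incl_jF_ne_zero N) (jdF N d hd)

theorem coe_jdF' (d : ℕ) [NeZero d] (hd : d ∣ N) :
    ((jdF N d hd : FN N) : LaurentSeries Kbar) = jS Kbar d := by
  rw [coe_jdF, jdSeries_eq, jS]

/-- `θ j_d = c · θ j` -/
theorem coe_cF_mul (d : ℕ) [NeZero d] (hd : d ∣ N) :
    thetaL (jS Kbar d) = ((cF N d hd : FN N) : LaurentSeries Kbar) * thetaL (jqModC Kbar) := by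
  have h := dOver_spec (incl N) (thetaDer Kbar) (jF N) (theta_incl_jF_ne_zero N) (jdF N d hd)
  simp only [thetaDer_apply] at h
  have h1 : incl N (jdF N d hd) = jS Kbar d := coe_jdF' N d hd
  have h2 : incl N (jF N) = jqModC Kbar := coe_jF' N
  rw [h1, h2] at h
  exact h

theorem cF_ne_zero (d : ℕ) [NeZero d] (hd : d ∣ N) : cF N d hd ≠ 0 := fun h => by
  have h1 := coe_cF_mul N d hd
  rw [h, ZeroMemClass.coe_zero, zero_mul] at h1
  exact thetaL_jS_ne_zero Kbar d h1

/-- **the eta quotient `Δ(z)/Δ(dz)` as an element of `F_N`**. -/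
def etaQ (d : ℕ) [NeZero d] (hd : d ∣ N) : FN N :=
  (d : FN N) ^ 6 * ((cF N d hd)⁻¹) ^ 6 * (jdF N d hd ^ 4 * (jdF N d hd - 1728) ^ 3) /
    (jF N ^ 4 * (jF N - 1728) ^ 3)

/-- **`etaQ = Δ(Q)/Δ(Q^d)`** as Laurent series. -/
theorem coe_etaQ (d : ℕ) [NeZero d] (hd : d ∣ N) :
    ((etaQ N d hd : FN N) : LaurentSeries Kbar) = uInvS Kbar d := by
  have hc := coe_cF_mul N d hd
  have hc0 : ((cF N d hd : FN N) : LaurentSeries Kbar) ≠ 0 := fun h =>
    cF_ne_zero N d hd (Subtype.ext h)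
  have hθ := thetaL_jqModC_ne_zero Kbar
  have hJ := jqModC_ne_zero' Kbar
  have hJ' := jqModC_sub_ne_zero Kbar
  have key := uInvS_mul_eq (R := Kbar) d
  rw [hc] at key
  have hcoe : ((etaQ N d hd : FN N) : LaurentSeries Kbar) =
      (d : LaurentSeries Kbar) ^ 6 * (((cF N d hd : FN N) : LaurentSeries Kbar)⁻¹) ^ 6 *
        (jS Kbar d ^ 4 * (jS Kbar d - 1728) ^ 3) /
        (jqModC Kbar ^ 4 * (jqModC Kbar - 1728) ^ 3) := by
    have : ((etaQ N d hd : FN N) : LaurentSeries Kbar) = incl N (etaQ N d hd) := rfl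
    rw [this, etaQ]
    simp only [map_div₀, map_mul, map_pow, map_inv₀, map_sub, map_natCast, map_ofNat]
    have h1 : incl N (jdF N d hd) = jS Kbar d := coe_jdF' N d hd
    have h2 : incl N (jF N) = jqModC Kbar := coe_jF' N
    rw [h1, h2]
    rfl
  rw [hcoe]
  have hden : jqModC Kbar ^ 4 * (jqModC Kbar - 1728) ^ 3 ≠ 0 :=
    mul_ne_zero (pow_ne_zero _ hJ) (pow_ne_zero _ hJ')
  rw [div_eq_iff hden]
  have hC : (HahnSeries.C ((d : Kbar) ^ 6) : LaurentSeries Kbar) = (d : LaurentSeries Kbar) ^ 6 := by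
    rw [map_pow, map_natCast]
  rw [hC] at key
  have hcθ : (((cF N d hd : FN N) : LaurentSeries Kbar) * thetaL (jqModC Kbar)) ^ 6 ≠ 0 :=
    pow_ne_zero _ (mul_ne_zero hc0 hθ)
  apply mul_right_cancel₀ hcθ
  have e : uInvS Kbar d * (jqModC Kbar ^ 4 * (jqModC Kbar - 1728) ^ 3) *
      (((cF N d hd : FN N) : LaurentSeries Kbar) * thetaL (jqModC Kbar)) ^ 6 =
      (d : LaurentSeries Kbar) ^ 6 *
        (thetaL (jqModC Kbar) ^ 6 * (jS Kbar d ^ 4 * (jS Kbar d - 1728) ^ 3)) := by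
    rw [← key]; ring
  rw [e, mul_pow, inv_pow]
  have hc6 : ((cF N d hd : FN N) : LaurentSeries Kbar) ^ 6 ≠ 0 := pow_ne_zero _ hc0
  field_simp

theorem etaQ_ne_zero (d : ℕ) [NeZero d] (hd : d ∣ N) : etaQ N d hd ≠ 0 := fun h => by
  have h1 := coe_etaQ N d hd
  rw [h, ZeroMemClass.coe_zero] at h1
  have h2 := uS_mul_uInvS (R := Kbar) d
  rw [← h1, mul_zero] at h2
  exact zero_ne_one h2

end FN

end Fermat.Agent.GL.Eta
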